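import Fermat.Agent.FF3.StepA5.Frame
import Fermat.Agent.FF3.StepA2.Split
import Fermat.Agent.FF3.StepA4.Kron

/-!
# PROGRAMME I, block A, node (A5), UNCONDITIONAL: `Frame.norm_trace_le` and `Frame.dworkData`

`StepA5.norm_trace_le_of` / `StepA5.dworkData_of` fed with helper7's (A2)+(A3)
(`StepA2.finite_phi`, `finrank_phi`, `norm_sum_theta`, `exists_sum_theta`) and helper19's (A4)
(`StepA4.Frame.exists_kron`).  Only `hqM : ¬ q ∣ M` is needed (by (A2)/(A3)).
-/

set_option autoImplicit false
set_option linter.unusedSectionVars false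
set_option linter.style.haveILetI false
set_option synthInstance.maxHeartbeats 400000

noncomputable section
namespace Fermat.Agent.FF3.StepA5

open AlgebraicCurve ModularCurve IsLocalRing Fermat.Agent.FF3.StepA

variable {M q : ℕ} [NeZero M] [hq : Fact q.Prime]
  {B : ValuationSubring (AlgebraicClosure ℚ)} [IsAlgClosed (ResidueField B)]
  [CharP (ResidueField B) q]
  {hB : B.LiesOverPrime q} (hqM : ¬ q ∣ M)
  {L : Type} [NormedField L] [CompleteSpace L] [IsUltrametricDist L] (Fr : Frame M q B hB L)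

include hqM in
/-- **(A-trace)** `Frame.norm_trace_le` of contract D-A, unconditional. -/
theorem frame_norm_trace_le (y : L) :
    letI := Fr.φ.toAlgebra
    ‖Algebra.trace L L y‖ ≤ ‖(q : L)‖ * ‖y‖ :=
  norm_trace_le_of Fr ⟨StepA2.finite_phi hqM Fr, StepA2.finrank_phi hqM Fr⟩
    (StepA2.norm_sum_theta hqM Fr) (StepA2.exists_sum_theta hqM Fr)
    (StepA4.Frame.exists_kron Fr) y

include hqM in
/-- **(A-contr)** `Frame.dworkData` of contract D-A, unconditional. -/
theorem frame_dworkData : DworkData q Fr.Kc Fr.N :=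
  dworkData_of Fr ⟨StepA2.finite_phi hqM Fr, StepA2.finrank_phi hqM Fr⟩
    (StepA2.norm_sum_theta hqM Fr) (StepA2.exists_sum_theta hqM Fr)
    (StepA4.Frame.exists_kron Fr)

end Fermat.Agent.FF3.StepA5
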