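import Mathlib
import Fermat.Agent.FF3.NormContr.Final

/-!
# PROGRAMME I, block A, node (A5): trace bound and contraction, ABSTRACT form

`K` a complete ultrametric normed field, `L / K` a finite normed extension of degree `q` (a prime
with `‖q‖ < 1`, characteristic zero), the inclusion `K → L` isometric, `|L| = |K|`, and

* (A3') `1, θ, …, θ^{q-1}` is an ORTHONORMAL basis of `L` over `K`;
* (A4') a monic `P ∈ K[X]` of degree `q` kills `θ`, with `‖P.coeff 0‖ ≤ 1` and
  `‖P.coeff k‖ ≤ ‖q‖` for `0 < k < q` (Kronecker's congruence `P ≡ X^q − θ₀ mod q`).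

Then (consuming helper21's `FF3/NormContr`):

* `norm_trace_le` : `‖Tr_{L/K} y‖ ≤ ‖q‖ ‖y‖`;
* `norm_algebraNorm_eq` : `‖N_{L/K} y‖ = ‖y‖ ^ q`;
* `norm_algebraNorm_one_add_sub_one_le` : `‖N_{L/K}(1 + h) − 1‖ ≤ max (‖q‖ ‖h‖) (‖h‖ ^ q)` for
  `‖h‖ < 1`.

In the application `K = L` as a type with the algebra structure `φ.toAlgebra` (`φ` the Frobenius
lift of the frame), so that `Algebra.norm K = normPhi φ`.
-/

set_option autoImplicit false
set_option linter.unusedSectionVars false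

open Polynomial

namespace Fermat.Agent.FF3.StepA5

open Fermat.Agent.FF3.NormContr

section Nat

variable {K : Type*} [NormedField K] [IsUltrametricDist K]

/-- In an ultrametric normed field with `‖q‖ < 1` (`q` prime), every `0 < j < q` has norm one. -/
theorem norm_natCast_eq_one_of_lt {q : ℕ} (hq : q.Prime) (hqn : ‖(q : K)‖ < 1) {j : ℕ}
    (hj0 : 0 < j) (hjq : j < q) : ‖(j : K)‖ = 1 := by
  refine le_antisymm (IsUltrametricDist.norm_natCast_le_one K j) ?_
  have hcop : Nat.Coprime j q := (Nat.coprime_of_lt_prime hj0.ne' hjq hq).symm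
  obtain ⟨a, b, hab⟩ : ∃ a b : ℤ, a * (j : ℤ) + b * (q : ℤ) = 1 := by
    have := (Int.isCoprime_iff_gcd_eq_one (m := (j : ℤ)) (n := (q : ℤ))).2 (by
      rw [Int.gcd_natCast_natCast]; exact hcop)
    exact this
  have h1 : (a : K) * (j : K) + (b : K) * (q : K) = 1 := by
    have := congrArg (fun z : ℤ => (z : K)) hab
    simpa using this
  by_contra hlt
  rw [not_le] at hlt
  have h2 : ‖(a : K) * (j : K) + (b : K) * (q : K)‖ < 1 := by
    refine (IsUltrametricDist.norm_add_le_max _ _).trans_lt (max_lt ?_ ?_)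
    · rw [norm_mul]
      exact (mul_le_of_le_one_left (norm_nonneg _)
        (IsUltrametricDist.norm_intCast_le_one K a)).trans_lt hlt
    · rw [norm_mul]
      exact (mul_le_of_le_one_left (norm_nonneg _)
        (IsUltrametricDist.norm_intCast_le_one K b)).trans_lt hqn
  rw [h1, norm_one] at h2
  exact lt_irrefl _ h2

end Nat

section Main

variable {K L : Type*} [NormedField K] [IsUltrametricDist K]
  [NormedField L] [IsUltrametricDist L] [Algebra K L] [FiniteDimensional K L]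

/-- The powers of `θ` generate: from the basis property, `K⟮θ⟯ = ⊤`. -/
theorem adjoin_eq_top_of_exists_sum {q : ℕ} (θ : L)
    (hex : ∀ y : L, ∃ c : Fin q → K, y = ∑ i : Fin q, algebraMap K L (c i) * θ ^ (i : ℕ)) :
    IntermediateField.adjoin K {θ} = ⊤ := by
  rw [eq_top_iff]
  intro y _
  obtain ⟨c, rfl⟩ := hex y
  refine sum_mem fun i _ => mul_mem (IntermediateField.algebraMap_mem _ _) (pow_mem ?_ _)
  exact IntermediateField.mem_adjoin_simple_self K θ

/-- The minimal polynomial of `θ` is the given monic polynomial of degree `[L : K]` killing `θ`. -/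
theorem minpoly_eq_of_basis {q : ℕ} (hrank : Module.finrank K L = q) (θ : L)
    (hex : ∀ y : L, ∃ c : Fin q → K, y = ∑ i : Fin q, algebraMap K L (c i) * θ ^ (i : ℕ))
    (P : K[X]) (hP : P.Monic) (hPdeg : P.natDegree = q) (hPθ : aeval θ P = 0) :
    minpoly K θ = P := by
  have hint : IsIntegral K θ := Algebra.IsIntegral.isIntegral θ
  have hdeg : (minpoly K θ).natDegree = q := by
    rw [← IntermediateField.adjoin.finrank hint, adjoin_eq_top_of_exists_sum θ hex,
      IntermediateField.finrank_top', hrank]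
  refine (eq_of_monic_of_dvd_of_natDegree_le (minpoly.monic hint) hP (minpoly.dvd K θ hPθ) ?_).symm
  rw [hdeg, hPdeg]

/-- The unit ball of `L` is `O_K[θ]`: the hypothesis `hbasis` of helper21's contraction lemma from
the orthonormal basis. -/
theorem exists_unitBall_poly_of_basis {q : ℕ} (θ : L)
    (hsum : ∀ c : Fin q → K,
      ‖∑ i : Fin q, algebraMap K L (c i) * θ ^ (i : ℕ)‖ = ⨆ i : Fin q, ‖c i‖)
    (hex : ∀ y : L, ∃ c : Fin q → K, y = ∑ i : Fin q, algebraMap K L (c i) * θ ^ (i : ℕ))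
    (h : L) (hh : ‖h‖ ≤ 1) :
    ∃ Pp : (unitBall K)[X], h = aeval θ (Pp.map (unitBall K).subtype) := by
  obtain ⟨c, rfl⟩ := hex h
  rw [hsum c] at hh
  have hc : ∀ i, c i ∈ unitBall K := fun i =>
    (mem_unitBall _).2 ((le_ciSup (Finite.bddAbove_range fun i : Fin q => ‖c i‖) i).trans hh)
  refine ⟨∑ i : Fin q, C (⟨c i, hc i⟩ : unitBall K) * X ^ (i : ℕ), ?_⟩
  rw [Polynomial.map_sum, map_sum]
  refine Finset.sum_congr rfl fun i _ => ?_
  rw [Polynomial.map_mul, Polynomial.map_pow, map_X, map_C, map_mul, map_pow, aeval_X, aeval_C]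
  rfl

end Main

section Package

variable {K L : Type*} [NormedField K] [IsUltrametricDist K] [CharZero K]
  [NormedField L] [IsUltrametricDist L] [Algebra K L] [FiniteDimensional K L]
  (hiso : ∀ x : K, ‖algebraMap K L x‖ = ‖x‖)
  {q : ℕ} (hq : q.Prime) (hqn : ‖(q : K)‖ < 1)
  (hrank : Module.finrank K L = q) (θ : L)
  (hsum : ∀ c : Fin q → K,
    ‖∑ i : Fin q, algebraMap K L (c i) * θ ^ (i : ℕ)‖ = ⨆ i : Fin q, ‖c i‖)
  (hex : ∀ y : L, ∃ c : Fin q → K, y = ∑ i : Fin q, algebraMap K L (c i) * θ ^ (i : ℕ))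
  (P : K[X]) (hP : P.Monic) (hPdeg : P.natDegree = q) (hPθ : aeval θ P = 0)
  (hP0 : ‖P.coeff 0‖ ≤ 1) (hPk : ∀ k : ℕ, 0 < k → k < q → ‖P.coeff k‖ ≤ ‖(q : K)‖)
  (hval : ∀ x : L, ∃ π : K, ‖π‖ = ‖x‖)

include hq in
theorem natCast_ne_zero' : (q : K) ≠ 0 := Nat.cast_ne_zero.2 hq.ne_zero

theorem exists_mul_of_norm_le {a x : K} (ha : a ≠ 0) (hx : ‖x‖ ≤ ‖a‖) :
    ∃ b ∈ unitBall K, x = a * b := by
  refine ⟨a⁻¹ * x, ?_, by field_simp⟩
  rw [mem_unitBall, norm_mul, norm_inv, inv_mul_le_iff₀ (norm_pos_iff.mpr ha), mul_one]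
  exact hx

include hiso hq hqn hrank hsum hex hP hPdeg hPθ hP0 hPk hval in
/-- **(A5), trace bound**: `‖Tr_{L/K} y‖ ≤ ‖q‖ ‖y‖`. -/
theorem norm_trace_le (y : L) : ‖Algebra.trace K L y‖ ≤ ‖(q : K)‖ * ‖y‖ := by
  have hq0 : (q : K) ≠ 0 := natCast_ne_zero' hq
  have hmin := minpoly_eq_of_basis hrank θ hex P hP hPdeg hPθ
  -- the integral case
  have hint : ∀ h : L, ‖h‖ ≤ 1 → ‖Algebra.trace K L h‖ ≤ ‖(q : K)‖ := by
    intro h hh
    obtain ⟨Pp, rfl⟩ := exists_unitBall_poly_of_basis θ hsum hex h hh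
    obtain ⟨a, ha, hta⟩ := trace_aeval_mem_of_minpoly (unitBall K) (q : K)
      ((mem_unitBall _).2 hqn.le) θ (by rw [hmin, hPdeg, hrank]) (by rw [hmin]; exact hP0)
      (fun k hk0 hkn => by
        rw [hmin]
        exact exists_mul_of_norm_le hq0 (hPk k hk0 (by rwa [hrank] at hkn)))
      (by rw [hrank]; exact ⟨1, (unitBall K).one_mem, (mul_one _).symm⟩) Pp
    rw [hta, norm_mul]
    exact mul_le_of_le_one_right (norm_nonneg _) ha
  by_cases hy : y = 0
  · rw [hy, map_zero, norm_zero]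
    positivity
  obtain ⟨π, hπ⟩ := hval y
  have hπ0 : π ≠ 0 := by
    intro h0
    rw [h0, norm_zero] at hπ
    exact hy (norm_eq_zero.mp hπ.symm)
  have hπL : algebraMap K L π ≠ 0 := by
    intro h0
    have := hiso π
    rw [h0, norm_zero] at this
    exact hπ0 (norm_eq_zero.mp this.symm)
  have hh1 : ‖(algebraMap K L π)⁻¹ * y‖ ≤ 1 := by
    rw [norm_mul, norm_inv, hiso, hπ, inv_mul_cancel₀ (norm_ne_zero_iff.mpr hy)]
  have hy_eq : y = π • ((algebraMap K L π)⁻¹ * y) := by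
    rw [Algebra.smul_def, ← mul_assoc, mul_inv_cancel₀ hπL, one_mul]
  have htr : Algebra.trace K L y = π * Algebra.trace K L ((algebraMap K L π)⁻¹ * y) := by
    conv_lhs => rw [hy_eq]
    rw [map_smul, smul_eq_mul]
  rw [htr, norm_mul, hπ, mul_comm]
  exact mul_le_mul_of_nonneg_right (hint _ hh1) (norm_nonneg _)

include hiso hq hqn hrank in
/-- **(A5), the norm of the norm**: `‖N_{L/K} y‖ = ‖y‖ ^ q` (`K` complete). -/
theorem norm_algebraNorm_eq [CompleteSpace K] (y : L) : ‖Algebra.norm K y‖ = ‖y‖ ^ q := by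
  have hq0 : (q : K) ≠ 0 := natCast_ne_zero' hq
  letI : NontriviallyNormedField K :=
    { ‹NormedField K› with
      non_trivial := ⟨(q : K)⁻¹, by
        rw [norm_inv]
        exact (one_lt_inv₀ (norm_pos_iff.mpr hq0)).mpr hqn⟩ }
  letI : NormedAlgebra K L :=
    { ‹Algebra K L› with
      norm_smul_le := fun r x => by
        rw [Algebra.smul_def, norm_mul, hiso] }
  have := norm_algebraNorm_eq_pow (K := K) (L := L) y
  rw [hrank] at this
  exact this

include hiso hq hqn hrank hsum hex hP hPdeg hPθ hP0 hPk hval in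
/-- **(A5), the contraction**: `‖N_{L/K}(1 + h) − 1‖ ≤ max (‖q‖ ‖h‖) (‖h‖ ^ q)` for `‖h‖ < 1`. -/
theorem norm_algebraNorm_one_add_sub_one_le [CompleteSpace K] (h : L) (hh : ‖h‖ < 1) :
    ‖Algebra.norm K (1 + h) - 1‖ ≤ max (‖(q : K)‖ * ‖h‖) (‖h‖ ^ q) := by
  have hq0 : (q : K) ≠ 0 := natCast_ne_zero' hq
  have hmin := minpoly_eq_of_basis hrank θ hex P hP hPdeg hPθ
  have hnorm : ∀ z : L, ‖z‖ ≤ 1 → ‖Algebra.norm K z‖ ≤ 1 := fun z hz => by
    rw [norm_algebraNorm_eq hiso hq hqn hrank z]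
    exact pow_le_one₀ (norm_nonneg _) hz
  have key := norm_norm_sub_one_le (K := K) (L := L) (q : K) hq0 hqn.le θ
    (by rw [hmin, hPdeg, hrank]) (by rw [hmin]; exact hP0)
    (fun k hk0 hkn => by rw [hmin]; exact hPk k hk0 (by rwa [hrank] at hkn))
    (by rw [hrank])
    (fun j hj0 hjn => norm_natCast_eq_one_of_lt hq hqn hj0 (by rwa [hrank] at hjn))
    hiso hval (exists_unitBall_poly_of_basis θ hsum hex) hnorm (1 + h)
    (by rwa [add_sub_cancel_left])
  rw [add_sub_cancel_left, hrank, max_comm] at key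
  exact key

end Package

end Fermat.Agent.FF3.StepA5
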