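import Mathlib
import Fermat.Agent.FF3.StepA5.Abstract

/-!
# PROGRAMME I, block A, node (A5): the package for an isometric endomorphism `φ : L → L`

`L` a complete ultrametric normed field of characteristic zero, `φ : L →+* L` an isometric ring
endomorphism (the Frobenius lift of the frame), `q` a prime with `‖q‖ < 1`.  `L` is an algebra over
itself through `φ` (`φ.toAlgebra`); its norm map is `normPhi φ` of the contract.  Hypotheses in the
literal shapes of contract D-A: `h2` = (A2) (module structure EXPLICIT), `h3a`, `h3b` = (A3),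
`h4` = (A4).  This file is `StepA5/Abstract.lean` at `K := L`, `algebraMap := φ`.
-/

set_option autoImplicit false
set_option linter.unusedSectionVars false
set_option linter.style.haveILetI false

open Polynomial

namespace Fermat.Agent.FF3.StepA5

variable {L : Type*} [NormedField L] [IsUltrametricDist L] [CharZero L]
  (φ : L →+* L) (hφ : ∀ y : L, ‖φ y‖ = ‖y‖) {q : ℕ} (hq : q.Prime) (hqn : ‖(q : L)‖ < 1)
  (h2 : @Module.Finite L L _ _ φ.toAlgebra.toModule ∧
    @Module.finrank L L _ _ φ.toAlgebra.toModule = q)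
  (θ : L)
  (h3a : ∀ c : Fin q → L, ‖∑ i : Fin q, φ (c i) * θ ^ (i : ℕ)‖ = ⨆ i : Fin q, ‖c i‖)
  (h3b : ∀ y : L, ∃ c : Fin q → L, y = ∑ i : Fin q, φ (c i) * θ ^ (i : ℕ))
  (h4 : ∃ P : L[X], P.Monic ∧ P.natDegree = q ∧ (P.map φ).eval θ = 0 ∧
    ∀ i : ℕ, ‖(P - (X ^ q - C θ)).coeff i‖ ≤ ‖(q : L)‖)

include hq h3a in
/-- `‖θ‖ ≤ 1` from the orthonormal basis. -/
theorem norm_theta_le_one : ‖θ‖ ≤ 1 := by
  classical
  haveI : Nonempty (Fin q) := ⟨⟨0, hq.pos⟩⟩
  have h := h3a fun i => if (i : ℕ) = 1 then 1 else 0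
  have hsum : ∑ i : Fin q, φ (if (i : ℕ) = 1 then (1 : L) else 0) * θ ^ (i : ℕ) = θ := by
    rw [Finset.sum_eq_single (⟨1, hq.one_lt⟩ : Fin q)]
    · simp
    · intro i _ hi
      have : (i : ℕ) ≠ 1 := fun h1 => hi (Fin.ext h1)
      rw [if_neg this, map_zero, zero_mul]
    · intro h; exact absurd (Finset.mem_univ _) h
  rw [hsum] at h
  rw [h]
  refine ciSup_le fun i => ?_
  split_ifs
  · rw [norm_one]
  · rw [norm_zero]; exact zero_le_one

include hq hqn h3a in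
/-- The shape of the Kronecker polynomial: `‖P.coeff 0‖ ≤ 1`, middle coefficients `≤ ‖q‖`. -/
theorem kron_coeff_bounds {P : L[X]}
    (hPc : ∀ i : ℕ, ‖(P - (X ^ q - C θ)).coeff i‖ ≤ ‖(q : L)‖) :
    ‖P.coeff 0‖ ≤ 1 ∧ ∀ k : ℕ, 0 < k → k < q → ‖P.coeff k‖ ≤ ‖(q : L)‖ := by
  constructor
  · have h0 := hPc 0
    rw [coeff_sub, coeff_sub, coeff_X_pow, if_neg hq.ne_zero.symm, coeff_C_zero, zero_sub,
      sub_neg_eq_add] at h0
    have : P.coeff 0 = (P.coeff 0 + θ) + -θ := by ring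
    rw [this]
    refine (IsUltrametricDist.norm_add_le_max _ _).trans (max_le (h0.trans hqn.le) ?_)
    rw [norm_neg]
    exact norm_theta_le_one φ hq θ h3a
  · intro k hk0 hkq
    have hk := hPc k
    rw [coeff_sub, coeff_sub, coeff_X_pow, if_neg hkq.ne, coeff_C, if_neg hk0.ne', sub_zero,
      sub_zero] at hk
    exact hk

include hφ hq hqn h2 h3a h3b h4 in
/-- **(A5) trace bound** for the `φ`-algebra structure. -/
theorem norm_trace_phi_le (y : L) :
    ‖@Algebra.trace L L _ _ φ.toAlgebra y‖ ≤ ‖(q : L)‖ * ‖y‖ := by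
  letI := φ.toAlgebra
  haveI : @FiniteDimensional L L _ _ Algebra.toModule := h2.1
  obtain ⟨P, hP, hPdeg, hPθ, hPc⟩ := h4
  obtain ⟨hP0, hPk⟩ := kron_coeff_bounds φ hq hqn θ h3a hPc
  have hPθ' : aeval θ P = 0 := by
    rw [aeval_def, ← eval_map]
    exact hPθ
  exact norm_trace_le (K := L) (L := L) hφ hq hqn h2.2 θ h3a h3b P hP hPdeg hPθ' hP0 hPk
    (fun x => ⟨x, rfl⟩) y

include hφ hq hqn h2 in
/-- **(A5) `‖N_φ y‖ = ‖y‖ ^ q`.** -/
theorem norm_norm_phi_eq [CompleteSpace L] (y : L) :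
    ‖@Algebra.norm L L _ _ φ.toAlgebra y‖ = ‖y‖ ^ q := by
  letI := φ.toAlgebra
  haveI : @FiniteDimensional L L _ _ Algebra.toModule := h2.1
  exact norm_algebraNorm_eq (K := L) (L := L) hφ hq hqn h2.2 y

include hφ hq hqn h2 h3a h3b h4 in
/-- **(A5) the contraction** for `N_φ`. -/
theorem norm_norm_phi_one_add_sub_one_le [CompleteSpace L] (h : L) (hh : ‖h‖ < 1) :
    ‖@Algebra.norm L L _ _ φ.toAlgebra (1 + h) - 1‖ ≤ max (‖(q : L)‖ * ‖h‖) (‖h‖ ^ q) := by
  letI := φ.toAlgebra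
  haveI : @FiniteDimensional L L _ _ Algebra.toModule := h2.1
  obtain ⟨P, hP, hPdeg, hPθ, hPc⟩ := h4
  obtain ⟨hP0, hPk⟩ := kron_coeff_bounds φ hq hqn θ h3a hPc
  have hPθ' : aeval θ P = 0 := by
    rw [aeval_def, ← eval_map]
    exact hPθ
  exact norm_algebraNorm_one_add_sub_one_le (K := L) (L := L) hφ hq hqn h2.2 θ h3a h3b P hP hPdeg
    hPθ' hP0 hPk (fun x => ⟨x, rfl⟩) h hh

include h2 in
/-- **(A5) `N_φ c = c ^ q` on `φ`-fixed elements.** -/
theorem norm_phi_of_fixed {c : L} (hc : φ c = c) :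
    @Algebra.norm L L _ _ φ.toAlgebra c = c ^ q := by
  letI := φ.toAlgebra
  have h := Algebra.norm_algebraMap (R := L) (S := L) c
  rw [h2.2] at h
  have hc' : algebraMap L L c = c := hc
  rwa [hc'] at h

end Fermat.Agent.FF3.StepA5
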