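import Fermat.Agent.FF3.StepA.Defs
import Fermat.Agent.FF3.StepA5.Phi

/-!
# PROGRAMME I, block A, node (A5): `Frame.norm_trace_le` and `Frame.dworkData`

Contract D-A (#1734, `FF3/StepA/Contract.lean`), node (A5).  Inputs, as EXPLICIT HYPOTHESES in the
literal shapes of the contract (to be discharged by (A2), (A3), (A4)):

* `h2` = (A2) `Frame.finrank_phi`, with the module structure of `L` over `L` through `φ` written
  EXPLICITLY (`Fr.φ.toAlgebra.toModule`; the literal `letI := Fr.φ.toAlgebra; Module.finrank L L`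
  elaborates to `Semiring.toModule`, i.e. to the trivial structure);
* `h3a`, `h3b` = (A3) `Frame.norm_sum_theta`, `Frame.exists_sum_theta`;
* `h4` = (A4) `Frame.exists_kron`.

Outputs: `norm_trace_le_of` (= `Frame.norm_trace_le`) and `dworkData_of` (= `Frame.dworkData`).
From main only: `‖q‖ < 1` (`Separate.algebraMap_mem_nonunits_O1_iff`) and `φ = id` on `Kc`
(`α`, `β` are `Kb`-algebra maps + continuity).
-/

set_option autoImplicit false
set_option linter.unusedSectionVars false
set_option linter.style.haveILetI false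
set_option synthInstance.maxHeartbeats 400000

noncomputable section
namespace Fermat.Agent.FF3.StepA5

open AlgebraicCurve ModularCurve IsLocalRing Fermat.Agent.Red Fermat.Agent.X0 Fermat.Agent.Hecke
  Fermat.Agent.Jac Fermat.Agent.Val Fermat.Agent.BR Fermat.Agent.BR.SS Fermat.Agent.BR.S0
  Fermat.Agent.BR.TwoVal Fermat.Agent.BR.TwoValInst Fermat.Agent.BR.ConstRedTwo
  Fermat.Agent.BR.Inst.SpecIso Fermat.Agent.BR2.NormResidueModular
  Fermat.Agent.BR.S0.RedModular Fermat.Agent.FF3.StepA Polynomial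

variable {M q : ℕ} [NeZero M] [hq : Fact q.Prime]
  {B : ValuationSubring (AlgebraicClosure ℚ)} [IsAlgClosed (ResidueField B)]
  [CharP (ResidueField B) q]
  {hB : B.LiesOverPrime q}
  {L : Type} [NormedField L] (Fr : Frame M q B hB L)

/-! ### facts from the frame and main -/

include Fr in
theorem charZero_of_frame : CharZero L :=
  charZero_of_injective_ringHom (RingHom.injective Fr.e1)

include Fr in
/-- `‖q‖ < 1` in the frame. -/
theorem norm_natCast_lt_one_of_frame : ‖(q : L)‖ < 1 := by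
  have h1 : (q : L) =
      Fr.e1 (algebraMap (AlgebraicClosure ℚ) (Fb (M * q)) (q : AlgebraicClosure ℚ)) := by
    rw [map_natCast, map_natCast]
  have h2 : algebraMap (AlgebraicClosure ℚ) (Fb (M * q)) (q : AlgebraicClosure ℚ) ∈
      (O1 M B hB).nonunits :=
    (Fermat.Agent.BR.Separate.algebraMap_mem_nonunits_O1_iff B hB _).mpr hB
  rw [ValuationSubring.mem_nonunits_iff_or] at h2
  rw [h1]
  by_contra hcon
  rw [not_lt] at hcon
  rcases h2 with h0 | hinv
  · rw [h0, map_zero, norm_zero] at hcon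
    exact absurd hcon (by norm_num)
  · apply hinv
    rw [← Fr.norm_le_one_iff, map_inv₀, norm_inv]
    exact inv_le_one_of_one_le₀ hcon

/-- `φ` is the identity on the constants `e1 (Kb)`. -/
theorem phi_e1_algebraMap (c : AlgebraicClosure ℚ) :
    Fr.φ (Fr.e1 (algebraMap (AlgebraicClosure ℚ) (Fb (M * q)) c)) =
      Fr.e1 (algebraMap (AlgebraicClosure ℚ) (Fb (M * q)) c) := by
  have h := Fr.e1_beta (algebraMap (AlgebraicClosure ℚ) (Fb M) c)
  rw [AlgHom.commutes, AlgHom.commutes] at h
  exact h.symm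

/-- `φ` is continuous (an isometry). -/
theorem continuous_phi : Continuous Fr.φ := by
  have hiso : Isometry Fr.φ := by
    refine AddMonoidHomClass.isometry_of_norm Fr.φ Fr.norm_phi
  exact hiso.continuous

/-- `φ` is the identity on the closed field of constants `Kc`. -/
theorem phi_eq_self_of_mem_Kc {c : L} (hc : c ∈ Fr.Kc) : Fr.φ c = c := by
  have hclosed : IsClosed {x : L | Fr.φ x = x} :=
    isClosed_eq (continuous_phi Fr) continuous_id
  have hsub : (((algebraMap (AlgebraicClosure ℚ) (Fb (M * q))).fieldRange.map Fr.e1 :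
      Subfield L) : Set L) ⊆ {x : L | Fr.φ x = x} := by
    rintro _ ⟨_, ⟨c, rfl⟩, rfl⟩
    exact phi_e1_algebraMap Fr c
  exact closure_minimal hsub hclosed hc

theorem isClosed_Kc : IsClosed (Fr.Kc : Set L) :=
  Subfield.isClosed_topologicalClosure _

/-! ### the two deliverables of (A5) -/

section Deliverables

variable [CompleteSpace L] [IsUltrametricDist L]
  (h2 : @Module.Finite L L _ _ Fr.φ.toAlgebra.toModule ∧
    @Module.finrank L L _ _ Fr.φ.toAlgebra.toModule = q)
  (h3a : ∀ c : Fin q → L,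
    ‖∑ i : Fin q, Fr.φ (c i) * Fr.theta ^ (i : ℕ)‖ = ⨆ i : Fin q, ‖c i‖)
  (h3b : ∀ y : L, ∃ c : Fin q → L, y = ∑ i : Fin q, Fr.φ (c i) * Fr.theta ^ (i : ℕ))
  (h4 : ∃ P : Polynomial L, P.Monic ∧ P.natDegree = q ∧
      (P.map Fr.φ).eval Fr.theta = 0 ∧
      ∀ i : ℕ, ‖(P - (Polynomial.X ^ q - Polynomial.C Fr.theta)).coeff i‖ ≤ ‖(q : L)‖)

include h2 h3a h3b h4 in
/-- **(A5) = `Frame.norm_trace_le`** of contract D-A, from (A2), (A3), (A4). -/
theorem norm_trace_le_of (y : L) :
    letI := Fr.φ.toAlgebra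
    ‖Algebra.trace L L y‖ ≤ ‖(q : L)‖ * ‖y‖ :=
  haveI := charZero_of_frame Fr
  norm_trace_phi_le Fr.φ Fr.norm_phi hq.out (norm_natCast_lt_one_of_frame Fr) h2 Fr.theta
    h3a h3b h4 y

include h2 h3a h3b h4 in
/-- **(A5) = `Frame.dworkData`** of contract D-A, from (A2), (A3), (A4). -/
theorem dworkData_of : DworkData q Fr.Kc Fr.N :=
  haveI := charZero_of_frame Fr
  { norm_map := fun y =>
      norm_norm_phi_eq Fr.φ Fr.norm_phi hq.out (norm_natCast_lt_one_of_frame Fr) h2 y
    map_const := fun _ hc => norm_phi_of_fixed Fr.φ h2 (phi_eq_self_of_mem_Kc Fr hc)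
    contr := fun h hh =>
      norm_norm_phi_one_add_sub_one_le Fr.φ Fr.norm_phi hq.out (norm_natCast_lt_one_of_frame Fr)
        h2 Fr.theta h3a h3b h4 h hh
    norm_p := norm_natCast_lt_one_of_frame Fr
    one_lt := hq.out.one_lt
    closed := isClosed_Kc Fr }

end Deliverables

end Fermat.Agent.FF3.StepA5
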